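/-
S41 (level raising), helper40: bridge lemmas for the INTEGRAL architecture.

* `exists_eq_nsmul_of_forall_dvd`, `red_eq_zero_iff`: an integral hom vanishes mod `p` iff it is
  `p` times an integral hom;
* `isParabolicHom_of_nsmul`: the lattice of parabolic homs is saturated;
* `castC`: composition with `ℤ → ℂ`, injective, compatible with `heckeHom`;
* `heckeLin`: `heckeHom M ℓ ℂ` as a `ℂ`-linear map;
* `finite_parabolicHoms_int`: `Hom_par(Γ₀(M), ℤ)` is a finite `ℤ`-module.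
-/
import Mathlib
import Fermat.Agent.S16.H75.Gamma0Hecke
import Fermat.Agent.S22.H75.Gamma0FG

set_option autoImplicit false
open CongruenceSubgroup ModularCurve ModularCurve.Period
open scoped MatrixGroups
open Fermat.Agent.S16.H75 (heckeHom heckeHom_comp)

namespace Fermat.Agent.S41.H40

section generic

variable {G : Type*} [AddZeroClass G]

/-- If all values of an integral hom are divisible by `p ≠ 0`, it is `p` times a hom. -/
theorem exists_eq_nsmul_of_forall_dvd {p : ℕ} (hp : p ≠ 0) (x : G →+ ℤ)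
    (h : ∀ g, (p : ℤ) ∣ x g) : ∃ w : G →+ ℤ, x = p • w := by
  have hp' : (p : ℤ) ≠ 0 := by exact_mod_cast hp
  refine ⟨⟨⟨fun g => x g / p, by simp⟩, fun a b => ?_⟩, ?_⟩
  · show x (a + b) / p = x a / p + x b / p
    rw [map_add, Int.add_ediv_of_dvd_left (h a)]
  · ext g
    show x g = p • (x g / p)
    rw [nsmul_eq_mul, Int.mul_ediv_cancel' (h g)]

/-- An integral hom vanishes mod `p` iff it is `p` times an integral hom. -/
theorem red_eq_zero_iff {p : ℕ} (hp : p ≠ 0) (x : G →+ ℤ) :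
    (Int.castAddHom (ZMod p)).comp x = 0 ↔ ∃ w : G →+ ℤ, x = p • w := by
  constructor
  · intro h
    refine exists_eq_nsmul_of_forall_dvd hp x fun g => ?_
    have h1 : ((x g : ℤ) : ZMod p) = 0 := DFunLike.congr_fun h g
    exact (ZMod.intCast_zmod_eq_zero_iff_dvd _ p).1 h1
  · rintro ⟨w, rfl⟩
    ext g
    show (((p • w) g : ℤ) : ZMod p) = 0
    rw [AddMonoidHom.nsmul_apply, nsmul_eq_mul]
    push_cast
    rw [ZMod.natCast_self, zero_mul]

end generic

/-- The lattice of parabolic homs is saturated. -/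
theorem isParabolicHom_of_nsmul {Γ : Subgroup SL(2, ℤ)} {p : ℕ} (hp : p ≠ 0)
    {w : Additive Γ →+ ℤ} (h : IsParabolicHom Γ (p • w)) : IsParabolicHom Γ w := by
  intro γ hγ
  have h1 : (p • w) (Additive.ofMul γ) = 0 := h γ hγ
  rw [AddMonoidHom.nsmul_apply, nsmul_eq_mul] at h1
  rcases mul_eq_zero.1 h1 with h2 | h2
  · exact absurd (by exact_mod_cast h2) hp
  · exact h2

/-- Composition with `ℤ → ℂ`. -/
def castC (M : ℕ) : (Additive (Gamma0 M) →+ ℤ) →+ (Additive (Gamma0 M) →+ ℂ) where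
  toFun x := (Int.castAddHom ℂ).comp x
  map_zero' := by ext; simp
  map_add' x y := by ext; simp

theorem castC_apply (M : ℕ) (x : Additive (Gamma0 M) →+ ℤ) (γ : Additive (Gamma0 M)) :
    castC M x γ = ((x γ : ℤ) : ℂ) := rfl

theorem castC_injective (M : ℕ) : Function.Injective (castC M) := by
  intro x y h
  ext γ
  have h1 : ((x γ : ℤ) : ℂ) = ((y γ : ℤ) : ℂ) := DFunLike.congr_fun h γ
  exact_mod_cast h1

theorem heckeHom_castC (M : ℕ) (ℓ : Nat.Primes) (x : Additive (Gamma0 M) →+ ℤ) :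
    heckeHom M ℓ ℂ (castC M x) = castC M (heckeHom M ℓ ℤ x) :=
  heckeHom_comp M ℓ (Int.castAddHom ℂ) x

theorem isParabolicHom_castC {M : ℕ} {x : Additive (Gamma0 M) →+ ℤ}
    (hx : IsParabolicHom (Gamma0 M) x) : IsParabolicHom (Gamma0 M) (castC M x) := by
  intro γ hγ
  show ((x (Additive.ofMul γ) : ℤ) : ℂ) = 0
  rw [hx γ hγ, Int.cast_zero]

/-- `heckeHom M ℓ ℂ` as a `ℂ`-linear map. -/
noncomputable def heckeLin (M : ℕ) (ℓ : Nat.Primes) :
    (Additive (Gamma0 M) →+ ℂ) →ₗ[ℂ] (Additive (Gamma0 M) →+ ℂ) where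
  toFun := heckeHom M ℓ ℂ
  map_add' := map_add _
  map_smul' c ψ := by
    have h1 : c • ψ = (AddMonoidHom.mulLeft c).comp ψ := by
      ext γ; rfl
    have h2 : c • heckeHom M ℓ ℂ ψ = (AddMonoidHom.mulLeft c).comp (heckeHom M ℓ ℂ ψ) := by
      ext γ; rfl
    show heckeHom M ℓ ℂ (c • ψ) = c • heckeHom M ℓ ℂ ψ
    rw [h1, h2, heckeHom_comp]

@[simp] theorem heckeLin_apply (M : ℕ) (ℓ : Nat.Primes) (ψ : Additive (Gamma0 M) →+ ℂ) :
    heckeLin M ℓ ψ = heckeHom M ℓ ℂ ψ := rfl

/-- Reduction mod `p` commutes with `heckeHom`. -/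
theorem heckeHom_red (M : ℕ) (ℓ : Nat.Primes) (p : ℕ) (x : Additive (Gamma0 M) →+ ℤ) :
    heckeHom M ℓ (ZMod p) ((Int.castAddHom (ZMod p)).comp x) =
      (Int.castAddHom (ZMod p)).comp (heckeHom M ℓ ℤ x) :=
  heckeHom_comp M ℓ (Int.castAddHom (ZMod p)) x

/-- `Hom(Γ₀(M), ℤ)` is a Noetherian `ℤ`-module. -/
theorem isNoetherian_hom_int (M : ℕ) [NeZero M] :
    IsNoetherian ℤ (Additive (Gamma0 M) →+ ℤ) := by
  classical
  obtain ⟨S, hS, hfin⟩ := Group.fg_iff.1 (Fermat.Agent.S22.H75.fg_Gamma0 M)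
  have : Fintype S := hfin.fintype
  let ev : (Additive (Gamma0 M) →+ ℤ) →ₗ[ℤ] (S → ℤ) :=
    { toFun := fun x s => x (Additive.ofMul (s : Gamma0 M))
      map_add' := fun x y => rfl
      map_smul' := fun c x => rfl }
  have hinj : Function.Injective ev := by
    intro x y hxy
    have key : ∀ γ : Gamma0 M, x (Additive.ofMul γ) = y (Additive.ofMul γ) := by
      intro γ
      have hγ : γ ∈ Subgroup.closure S := by rw [hS]; trivial
      induction hγ using Subgroup.closure_induction with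
      | mem g hg => exact congrFun hxy ⟨g, hg⟩
      | one => rw [ofMul_one, map_zero, map_zero]
      | mul a b _ _ ha hb => rw [ofMul_mul, map_add, map_add, ha, hb]
      | inv a _ ha => rw [ofMul_inv, map_neg, map_neg, ha]
    ext γ
    exact key (Additive.toMul γ)
  exact isNoetherian_of_injective ev hinj

/-- `Hom_par(Γ₀(M), ℤ)` is a finite `ℤ`-module. -/
theorem finite_parabolicHoms_int (M : ℕ) [NeZero M] :
    Module.Finite ℤ ↥(parabolicHoms ℤ (Gamma0 M) ℤ) := by
  have := isNoetherian_hom_int M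
  infer_instance

end Fermat.Agent.S41.H40
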