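/-
S41 (level raising), leaf (T4) of the binding architecture v1 (helper40).

From a nonzero parabolic `v : Γ₀(M) → ℂ` which is an eigenvector of `heckeHom M ℓ ℂ` for the primes
`ℓ` of a set `I` (eigenvalues `lam ℓ`) and satisfies `U_q (U_q v) = v`, produce a NORMALISED
EIGENFORM `g` of level `M` with `a_ℓ(g) = lam ℓ` on `I` and `a_q(g) ^ 2 = 1`.

Inputs: LANDED `S21.result` (Eichler–Shimura), `S16.H75.periodHomPair_formOp` (dictionary),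
`S49.exists_common_eigenvector`, `S49.exists_normalized_of_eigenvector`, and the commutativity of
the Prelude Hecke algebra of forms.
-/
import Fermat.Agent.S49.Forms
import Fermat.Agent.S49.LinAlg
import Fermat.Agent.S21
import Fermat.Agent.S16.H75.Gamma0Hecke

set_option autoImplicit false
open CongruenceSubgroup ModularCurve ModularCurve.Period
open Fermat.Agent.S16.H75 (heckeHom formOp)

namespace Fermat.Agent.S41.H40

theorem formOp_of_not_dvd {M : ℕ} [NeZero M] {ℓ : ℕ} (hℓ : ℓ.Prime) (h : ¬ ℓ ∣ M)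
    (g : CuspForm (Gamma0 M) 2) : formOp M ⟨ℓ, hℓ⟩ g = CuspForm.heckeTLin 2 hℓ h g := by
  show ((CuspForm.heckeFormsGen M 2 ⟨ℓ, hℓ⟩ : CuspForm.heckeAlgebra M 2 ∅) :
    Module.End ℂ (CuspForm (Gamma0 M) 2)) g = _
  rw [CuspForm.heckeFormsGen_of_not_dvd (show ¬ ((⟨ℓ, hℓ⟩ : Nat.Primes) : ℕ) ∣ M from h),
    CuspForm.heckeAlgebra.coe_T]

theorem formOp_of_dvd {M : ℕ} [NeZero M] {ℓ : ℕ} (hℓ : ℓ.Prime) (h : ℓ ∣ M)
    (g : CuspForm (Gamma0 M) 2) : formOp M ⟨ℓ, hℓ⟩ g = CuspForm.heckeULin 2 h g := by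
  show ((CuspForm.heckeFormsGen M 2 ⟨ℓ, hℓ⟩ : CuspForm.heckeAlgebra M 2 ∅) :
    Module.End ℂ (CuspForm (Gamma0 M) 2)) g = _
  rw [CuspForm.heckeFormsGen_of_dvd (show ((⟨ℓ, hℓ⟩ : Nat.Primes) : ℕ) ∣ M from h),
    CuspForm.heckeAlgebra.coe_U]

/-- The Hecke operators on forms commute. -/
theorem formOp_commute (M : ℕ) [NeZero M] (ℓ ℓ' : Nat.Primes) :
    Commute (formOp M ℓ) (formOp M ℓ') := by
  have h : CuspForm.heckeFormsGen M 2 ℓ * CuspForm.heckeFormsGen M 2 ℓ' =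
      CuspForm.heckeFormsGen M 2 ℓ' * CuspForm.heckeFormsGen M 2 ℓ := mul_comm _ _
  exact congrArg (Subtype.val) h

theorem formOp_comm_apply (M : ℕ) [NeZero M] (ℓ ℓ' : Nat.Primes) (g : CuspForm (Gamma0 M) 2) :
    formOp M ℓ (formOp M ℓ' g) = formOp M ℓ' (formOp M ℓ g) :=
  congrArg (fun F : Module.End ℂ (CuspForm (Gamma0 M) 2) => F g) (formOp_commute M ℓ ℓ').eq

/-- **Leaf (T4).**  A nonzero parabolic `v : Γ₀(M) → ℂ`, eigen for `heckeHom M ℓ ℂ` with eigenvalue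
`lam ℓ` for `ℓ ∈ I`, with `U_q (U_q v) = v`, gives a normalised eigenform `g` of level `M` with
`a_ℓ(g) = lam ℓ` for `ℓ ∈ I` and `a_q(g) ^ 2 = 1`. -/
theorem exists_eigenform_of_hom (M : ℕ) [NeZero M] (I : Set Nat.Primes) (q : Nat.Primes)
    (v : Additive (Gamma0 M) →+ ℂ) (hv0 : v ≠ 0) (hvpar : IsParabolicHom (Gamma0 M) v)
    (lam : Nat.Primes → ℂ) (hlam : ∀ ℓ ∈ I, heckeHom M ℓ ℂ v = lam ℓ • v)
    (hq : heckeHom M q ℂ (heckeHom M q ℂ v) = v) :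
    ∃ g : CuspForm (Gamma0 M) 2, g.IsNormalizedEigenform ∧
      (∀ ℓ ∈ I, ModularFormClass.qCoeff g (ℓ : ℕ) = lam ℓ) ∧
      ModularFormClass.qCoeff g (q : ℕ) ^ 2 = 1 := by
  classical
  obtain ⟨hinj, hrange⟩ := Fermat.Agent.S21.result M
  have hvmem : v ∈ LinearMap.range (periodHomPair M) := by
    rw [hrange]; exact hvpar
  obtain ⟨⟨g₁, g₂⟩, hg⟩ := hvmem
  -- the eigen-equations pass to the two forms
  have heig : ∀ ℓ ∈ I, formOp M ℓ g₁ = lam ℓ • g₁ ∧ formOp M ℓ g₂ = lam ℓ • g₂ := by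
    intro ℓ hℓ
    have h1 : periodHomPair M (formOp M ℓ g₁, formOp M ℓ g₂) =
        periodHomPair M (lam ℓ • (g₁, g₂)) := by
      rw [Fermat.Agent.S16.H75.periodHomPair_formOp, hg, hlam ℓ hℓ, map_smul, hg]
    have h2 := hinj h1
    rw [Prod.smul_mk] at h2
    exact ⟨(Prod.mk.inj h2).1, (Prod.mk.inj h2).2⟩
  have hqq : formOp M q (formOp M q g₁) = g₁ ∧ formOp M q (formOp M q g₂) = g₂ := by
    have h1 : periodHomPair M (formOp M q (formOp M q g₁), formOp M q (formOp M q g₂)) =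
        periodHomPair M (g₁, g₂) := by
      rw [Fermat.Agent.S16.H75.periodHomPair_formOp, Fermat.Agent.S16.H75.periodHomPair_formOp,
        hg, hq]
    have h2 := hinj h1
    exact ⟨(Prod.mk.inj h2).1, (Prod.mk.inj h2).2⟩
  -- the stable subspace
  let E : Submodule ℂ (CuspForm (Gamma0 M) 2) :=
    { carrier := {g | (∀ ℓ ∈ I, formOp M ℓ g = lam ℓ • g) ∧ formOp M q (formOp M q g) = g}
      zero_mem' := ⟨fun ℓ _ => by rw [map_zero, smul_zero], by rw [map_zero, map_zero]⟩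
      add_mem' := by
        rintro a b ⟨ha, ha'⟩ ⟨hb, hb'⟩
        refine ⟨fun ℓ hℓ => ?_, ?_⟩
        · rw [map_add, ha ℓ hℓ, hb ℓ hℓ, smul_add]
        · rw [map_add, map_add, ha', hb']
      smul_mem' := by
        rintro c a ⟨ha, ha'⟩
        refine ⟨fun ℓ hℓ => ?_, ?_⟩
        · rw [map_smul, ha ℓ hℓ, smul_comm]
        · rw [map_smul, map_smul, ha'] }
  have hEmem : ∀ g, g ∈ E ↔
      (∀ ℓ ∈ I, formOp M ℓ g = lam ℓ • g) ∧ formOp M q (formOp M q g) = g := fun _ => Iff.rfl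
  have hne : g₁ ≠ 0 ∨ g₂ ≠ 0 := by
    by_contra hcon
    rw [not_or, not_not, not_not] at hcon
    apply hv0
    rw [← hg, hcon.1, hcon.2]
    exact map_zero _
  have hEbot : E ≠ ⊥ := by
    rcases hne with h | h
    · intro hbot
      have : g₁ ∈ E := (hEmem g₁).2 ⟨fun ℓ hℓ => (heig ℓ hℓ).1, hqq.1⟩
      rw [hbot] at this
      exact h ((Submodule.mem_bot ℂ).1 this)
    · intro hbot
      have : g₂ ∈ E := (hEmem g₂).2 ⟨fun ℓ hℓ => (heig ℓ hℓ).2, hqq.2⟩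
      rw [hbot] at this
      exact h ((Submodule.mem_bot ℂ).1 this)
  have hfin : Module.Finite ℂ (CuspForm (Gamma0 M) 2) :=
    (Fermat.Agent.S21.H21.finrank_cuspForm_le M).1
  let S : Set (Module.End ℂ (CuspForm (Gamma0 M) 2)) := Set.range (fun ℓ : Nat.Primes => formOp M ℓ)
  have hS : ∀ a ∈ S, ∀ b ∈ S, Commute a b := by
    rintro a ⟨ℓ, rfl⟩ b ⟨ℓ', rfl⟩
    exact formOp_commute M ℓ ℓ'
  have hstab : ∀ a ∈ S, ∀ w ∈ E, a w ∈ E := by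
    rintro a ⟨ℓ', rfl⟩ w hw
    rw [hEmem] at hw ⊢
    refine ⟨fun ℓ hℓ => ?_, ?_⟩
    · show formOp M ℓ (formOp M ℓ' w) = lam ℓ • formOp M ℓ' w
      rw [formOp_comm_apply, hw.1 ℓ hℓ, map_smul]
    · show formOp M q (formOp M q (formOp M ℓ' w)) = formOp M ℓ' w
      rw [formOp_comm_apply M q ℓ', formOp_comm_apply M q ℓ', hw.2]
  obtain ⟨g, hgE, hg0, hgeig⟩ :=
    Fermat.Agent.S49.exists_common_eigenvector S hS (Module.finrank ℂ E) E rfl hEbot hstab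
  have hμex : ∀ ℓ : Nat.Primes, ∃ μ : ℂ, formOp M ℓ g = μ • g := fun ℓ => hgeig _ ⟨ℓ, rfl⟩
  choose μ hμ using hμex
  rw [hEmem] at hgE
  have hμI : ∀ ℓ ∈ I, μ ℓ = lam ℓ := by
    intro ℓ hℓ
    have h1 : (μ ℓ - lam ℓ) • g = 0 := by
      rw [sub_smul, ← hμ ℓ, hgE.1 ℓ hℓ, sub_self]
    rcases smul_eq_zero.1 h1 with h | h
    · exact sub_eq_zero.1 h
    · exact absurd h hg0
  have hμq : μ q ^ 2 = 1 := by
    have h1 : (μ q ^ 2 - 1) • g = 0 := by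
      have h2 := hgE.2
      rw [hμ q, map_smul, hμ q, smul_smul] at h2
      rw [sub_smul, one_smul, sq, h2, sub_self]
    rcases smul_eq_zero.1 h1 with h | h
    · exact sub_eq_zero.1 h
    · exact absurd h hg0
  let μ' : ℕ → ℂ := fun n => if h : n.Prime then μ ⟨n, h⟩ else 0
  have hμ' : ∀ (ℓ : ℕ) (hℓ : ℓ.Prime), μ' ℓ = μ ⟨ℓ, hℓ⟩ := fun ℓ hℓ => dif_pos hℓ
  obtain ⟨f, hf, hfμ⟩ := Fermat.Agent.S49.exists_normalized_of_eigenvector g hg0 μ'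
    (fun ℓ hℓ hℓM => by
      rw [hμ' ℓ hℓ, ← formOp_of_not_dvd hℓ hℓM]; exact hμ ⟨ℓ, hℓ⟩)
    (fun ℓ hℓ hℓM => by
      rw [hμ' ℓ hℓ, ← formOp_of_dvd hℓ hℓM]; exact hμ ⟨ℓ, hℓ⟩)
  refine ⟨f, hf, fun ℓ hℓ => ?_, ?_⟩
  · rw [hfμ ℓ ℓ.2, hμ' ℓ ℓ.2]
    exact hμI ℓ hℓ
  · rw [hfμ q q.2, hμ' q q.2]
    exact hμq

end Fermat.Agent.S41.H40
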