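/-
S41 (level raising), helper40: the LEAF STATEMENTS consumed by the top assembly, as `Prop`s.

Every leaf of the binding integral architecture which is not yet on main enters the assembly
`Fermat.Agent.S41.H40.s41_of_leaves` (file `Asm.lean`) as an explicit hypothesis of one of the
shapes below.  `L(M) = parabolicHoms ℤ (Gamma0 M) ℤ`; `alpha1, alpha2, beta1, beta2` are the
degeneracy maps and transfers of `Fermat.Agent.S41.H41`; `heckeHom` is the `S16/H75` operator.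
-/
import Mathlib
import Fermat.Agent.S41.H41.Transfer
import Fermat.Prelude.Def_FLTPrelim_ModularRep
import Fermat.Prelude.Def_FreyPackage_LevelRaising

set_option autoImplicit false
open CongruenceSubgroup ModularCurve ModularCurve.Period
open scoped MatrixGroups
open Fermat.Agent.S16.H75 (heckeHom)
open Fermat.Agent.S41.H41 (alpha1 alpha2 beta1 beta2)

namespace Fermat.Agent.S41.H40

/-- **Leaf RED** (integral form): the conclusion of `Fermat.Agent.S41.H97.red_int`.  An integral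
parabolic `x : Γ₀(N) → ℤ`, not divisible by `p`, which is an eigenvector modulo `p L(N)` of `T_ℓ`
with eigenvalue `a_ℓ(W)` at the good primes `ℓ ∤ N`, `ℓ ≠ p`, and of `T_q` with eigenvalue
`ε (q + 1)`. -/
def RedStatement (W : WeierstrassCurve ℤ) (p N : ℕ) (q : Nat.Primes) : Prop :=
  ∃ (ε : ℤ) (x : Additive (Gamma0 N) →+ ℤ), (ε = 1 ∨ ε = -1) ∧ IsParabolicHom (Gamma0 N) x ∧
    (∃ γ, ¬ (p : ℤ) ∣ x γ) ∧
    (∀ ℓ : Nat.Primes, W.IsGoodPrimeFor ℓ → ¬ (ℓ : ℕ) ∣ N → (ℓ : ℕ) ≠ p →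
      ∃ z : Additive (Gamma0 N) →+ ℤ, IsParabolicHom (Gamma0 N) z ∧
        heckeHom N ℓ ℤ x - W.apOfModel ℓ • x = p • z) ∧
    ∃ z : Additive (Gamma0 N) →+ ℤ, IsParabolicHom (Gamma0 N) z ∧
      heckeHom N q ℤ x - (ε * (((q : ℕ) : ℤ) + 1)) • x = p • z

/-- **Leaf NE** (non-Eisenstein witness): the conclusion of helper2's `ne_witness`. -/
def NeStatement (W : WeierstrassCurve ℤ) (p : ℕ) : Prop :=
  ∀ S : Finset ℕ, ∃ l : ℕ, l.Prime ∧ l ∉ S ∧ W.IsGoodPrimeFor l ∧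
    ¬ (p : ℤ) ∣ (l : ℤ) + 1 - W.apOfModel l

/-- **Leaf PAIR** (Poincaré duality mod `p` on the lattices of parabolic homs): biadditive forms
`EN` on `L(N)`, `EM` on `L(N q)` with values in `ZMod p` such that
* (PERF) an element pairing to zero with everything is divisible by `p` (both levels);
* (ADJ) `EM (alpha_i x) u = EN x (beta_i u)`, `i = 1, 2`;
* (SA) `T_{l₀}` of level `N` is self-adjoint for `EN`.
The compatibility hypotheses are phrased with auxiliary lattice elements `x'`, `u'`, `y'` so that no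
membership proof occurs in the statement. -/
def PairStatement (p N q : ℕ) (l₀ : Nat.Primes) : Prop :=
  ∃ (EN : ↥(parabolicHoms ℤ (Gamma0 N) ℤ) →+ ↥(parabolicHoms ℤ (Gamma0 N) ℤ) →+ ZMod p)
    (EM : ↥(parabolicHoms ℤ (Gamma0 (N * q)) ℤ) →+
      ↥(parabolicHoms ℤ (Gamma0 (N * q)) ℤ) →+ ZMod p),
    (∀ x, (∀ y, EN x y = 0) → ∃ w, x = p • w) ∧
    (∀ u, (∀ v, EM u v = 0) → ∃ w, u = p • w) ∧
    (∀ (x u' : ↥(parabolicHoms ℤ (Gamma0 N) ℤ)) (u x' : ↥(parabolicHoms ℤ (Gamma0 (N * q)) ℤ)),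
      (x' : Additive (Gamma0 (N * q)) →+ ℤ) = alpha1 N q ℤ x →
      (u' : Additive (Gamma0 N) →+ ℤ) = beta1 N q ℤ u → EM x' u = EN x u') ∧
    (∀ (x u' : ↥(parabolicHoms ℤ (Gamma0 N) ℤ)) (u x' : ↥(parabolicHoms ℤ (Gamma0 (N * q)) ℤ)),
      (x' : Additive (Gamma0 (N * q)) →+ ℤ) = alpha2 N q ℤ x →
      (u' : Additive (Gamma0 N) →+ ℤ) = beta2 N q ℤ u → EM x' u = EN x u') ∧
    (∀ x y x' y' : ↥(parabolicHoms ℤ (Gamma0 N) ℤ),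
      (x' : Additive (Gamma0 N) →+ ℤ) = heckeHom N l₀ ℤ x →
      (y' : Additive (Gamma0 N) →+ ℤ) = heckeHom N l₀ ℤ y → EN x' y = EN x y')

/-- **Unit U2** at coefficients `ℤ`: the thirteen leaf statements of
`Fermat.Agent.S41.H41` (`U2Spec.lean`), specialised to `A = ℤ`. -/
structure U2Facts (N : ℕ) (q : Nat.Primes) : Prop where
  b11 : ∀ φ : Additive (Gamma0 N) →+ ℤ, beta1 N q ℤ (alpha1 N q ℤ φ) = ((q : ℕ) + 1) • φ
  b22 : ∀ φ : Additive (Gamma0 N) →+ ℤ, beta2 N q ℤ (alpha2 N q ℤ φ) = ((q : ℕ) + 1) • φ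
  b12 : ∀ φ : Additive (Gamma0 N) →+ ℤ, beta1 N q ℤ (alpha2 N q ℤ φ) = heckeHom N q ℤ φ
  b21 : ∀ φ : Additive (Gamma0 N) →+ ℤ, beta2 N q ℤ (alpha1 N q ℤ φ) = heckeHom N q ℤ φ
  eqa1 : ∀ ℓ : Nat.Primes, ¬ (ℓ : ℕ) ∣ N * q → ∀ φ : Additive (Gamma0 N) →+ ℤ,
    alpha1 N q ℤ (heckeHom N ℓ ℤ φ) = heckeHom (N * q) ℓ ℤ (alpha1 N q ℤ φ)
  eqa2 : ∀ ℓ : Nat.Primes, ¬ (ℓ : ℕ) ∣ N * q → ∀ φ : Additive (Gamma0 N) →+ ℤ,
    alpha2 N q ℤ (heckeHom N ℓ ℤ φ) = heckeHom (N * q) ℓ ℤ (alpha2 N q ℤ φ)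
  eqb1 : ∀ ℓ : Nat.Primes, ¬ (ℓ : ℕ) ∣ N * q → ∀ u : Additive (Gamma0 (N * q)) →+ ℤ,
    beta1 N q ℤ (heckeHom (N * q) ℓ ℤ u) = heckeHom N ℓ ℤ (beta1 N q ℤ u)
  eqb2 : ∀ ℓ : Nat.Primes, ¬ (ℓ : ℕ) ∣ N * q → ∀ u : Additive (Gamma0 (N * q)) →+ ℤ,
    beta2 N q ℤ (heckeHom (N * q) ℓ ℤ u) = heckeHom N ℓ ℤ (beta2 N q ℤ u)
  para1 : ∀ φ : Additive (Gamma0 N) →+ ℤ, φ ∈ parabolicHoms ℤ (Gamma0 N) ℤ →
    alpha1 N q ℤ φ ∈ parabolicHoms ℤ (Gamma0 (N * q)) ℤ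
  para2 : ∀ φ : Additive (Gamma0 N) →+ ℤ, φ ∈ parabolicHoms ℤ (Gamma0 N) ℤ →
    alpha2 N q ℤ φ ∈ parabolicHoms ℤ (Gamma0 (N * q)) ℤ
  parb1 : ∀ u : Additive (Gamma0 (N * q)) →+ ℤ, u ∈ parabolicHoms ℤ (Gamma0 (N * q)) ℤ →
    beta1 N q ℤ u ∈ parabolicHoms ℤ (Gamma0 N) ℤ
  parb2 : ∀ u : Additive (Gamma0 (N * q)) →+ ℤ, u ∈ parabolicHoms ℤ (Gamma0 (N * q)) ℤ →
    beta2 N q ℤ u ∈ parabolicHoms ℤ (Gamma0 N) ℤ
  uq : ∀ u : Additive (Gamma0 (N * q)) →+ ℤ, beta1 N q ℤ u = 0 → beta2 N q ℤ u = 0 →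
    heckeHom (N * q) q ℤ (heckeHom (N * q) q ℤ u) = u

/-- **Leaf DICT-COMM** at level `M`, coefficients `ℤ`: the Hecke operators preserve the parabolic
homs and commute on them. -/
structure HeckeFacts (M : ℕ) : Prop where
  par : ∀ (ℓ : Nat.Primes) (x : Additive (Gamma0 M) →+ ℤ), IsParabolicHom (Gamma0 M) x →
    IsParabolicHom (Gamma0 M) (heckeHom M ℓ ℤ x)
  comm : ∀ (ℓ ℓ' : Nat.Primes) (x : Additive (Gamma0 M) →+ ℤ), IsParabolicHom (Gamma0 M) x →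
    heckeHom M ℓ ℤ (heckeHom M ℓ' ℤ x) = heckeHom M ℓ' ℤ (heckeHom M ℓ ℤ x)

end Fermat.Agent.S41.H40
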