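/-
S41 (level raising), helper40: THE TOP ASSEMBLY, conditional on the leaves of `Spec.lean`.
-/
import Mathlib
import Fermat.Agent.S41.H40.Spec
import Fermat.Agent.S41.H40.Lattice
import Fermat.Agent.S41.H40.FormsOfBetti
import Fermat.Agent.S41.H84.NewEigenInt
import Fermat.Agent.S41.H15.IharaEigen

set_option autoImplicit false
open CongruenceSubgroup ModularCurve ModularCurve.Period
open scoped MatrixGroups
open Fermat.Agent.S16.H75 (heckeHom heckeHom_comp mat mem_Gamma0_iff_dvd)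
open Fermat.Agent.S41.H41 (alpha1 alpha2 beta1 beta2)

namespace Fermat.Agent.S41.H40

/-- Restriction of an additive map to submodules. -/
def resHom {A B : Type*} [AddCommGroup A] [AddCommGroup B] {P : Submodule ℤ A}
    {Q : Submodule ℤ B} (F : A →+ B) (hF : ∀ x ∈ P, F x ∈ Q) : ↥P →+ ↥Q where
  toFun x := ⟨F x.1, hF x.1 x.2⟩
  map_zero' := Subtype.ext (map_zero F)
  map_add' x y := Subtype.ext (map_add F x.1 y.1)

@[simp] theorem coe_resHom {A B : Type*} [AddCommGroup A] [AddCommGroup B] {P : Submodule ℤ A}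
    {Q : Submodule ℤ B} (F : A →+ B) (hF : ∀ x ∈ P, F x ∈ Q) (x : ↥P) :
    ((resHom F hF x : ↥Q) : B) = F x := rfl

/-- **(IH) for the lattices**: Ihara's lemma for non-Eisenstein eigenvectors
(`Fermat.Agent.S41.H15.ihara_eigen` with `F = ZMod p`), in integral form. -/
theorem ihara_int {N q p : ℕ} (l₀ : Nat.Primes) (hp : p.Prime) (hN : 0 < N) (hq : q.Prime)
    (hqN : ¬ q ∣ N) (hl₀2 : (l₀ : ℕ) ≠ 2) (hl₀N : ¬ (l₀ : ℕ) ∣ N) (hl₀q : (l₀ : ℕ) ≠ q)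
    (hl₀p : (l₀ : ℕ) ≠ p) (c : ℤ) (hc : ¬ (p : ℤ) ∣ ((l₀ : ℕ) : ℤ) + 1 - c)
    (x₁ x₂ : Additive (Gamma0 N) →+ ℤ) (hx₁ : IsParabolicHom (Gamma0 N) x₁)
    (hx₂ : IsParabolicHom (Gamma0 N) x₂)
    (hker : ∃ w : Additive (Gamma0 (N * q)) →+ ℤ, alpha1 N q ℤ x₁ + alpha2 N q ℤ x₂ = p • w)
    (heig : ∃ w : Additive (Gamma0 N) →+ ℤ, heckeHom N l₀ ℤ x₁ - c • x₁ = p • w) :
    (∃ w : Additive (Gamma0 N) →+ ℤ, x₁ = p • w) ∧ ∃ w : Additive (Gamma0 N) →+ ℤ, x₂ = p • w := by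
  have : Fact p.Prime := ⟨hp⟩
  set φ : Additive (Gamma0 N) →+ ZMod p := (Int.castAddHom (ZMod p)).comp x₁ with hφ
  set ψ : Additive (Gamma0 N) →+ ZMod p := (Int.castAddHom (ZMod p)).comp x₂ with hψ
  have hT : ((((Fermat.Agent.S41.H15.Tn N 1 : Gamma0 N) : SL(2, ℤ)) :
      Matrix (Fin 2) (Fin 2) ℤ)).trace ^ 2 = 4 := by
    show (Matrix.trace !![(1 : ℤ), 1; 0, 1]) ^ 2 = 4
    rw [Matrix.trace_fin_two_of]; norm_num
  have hL : ((((Fermat.Agent.S41.H15.Ln N 1 : Gamma0 N) : SL(2, ℤ)) :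
      Matrix (Fin 2) (Fin 2) ℤ)).trace ^ 2 = 4 := by
    show (Matrix.trace !![(1 : ℤ), 0; (N : ℤ) * 1, 1]) ^ 2 = 4
    rw [Matrix.trace_fin_two_of]; norm_num
  have hφT : φ (Additive.ofMul (Fermat.Agent.S41.H15.Tn N 1)) = 0 := by
    show ((x₁ (Additive.ofMul (Fermat.Agent.S41.H15.Tn N 1)) : ℤ) : ZMod p) = 0
    rw [hx₁ _ hT, Int.cast_zero]
  have hφL : φ (Additive.ofMul (Fermat.Agent.S41.H15.Ln N 1)) = 0 := by
    show ((x₁ (Additive.ofMul (Fermat.Agent.S41.H15.Ln N 1)) : ℤ) : ZMod p) = 0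
    rw [hx₁ _ hL, Int.cast_zero]
  have hψT : ψ (Additive.ofMul (Fermat.Agent.S41.H15.Tn N 1)) = 0 := by
    show ((x₂ (Additive.ofMul (Fermat.Agent.S41.H15.Tn N 1)) : ℤ) : ZMod p) = 0
    rw [hx₂ _ hT, Int.cast_zero]
  -- the kernel relation
  have hkerRel : Fermat.Agent.S41.H15.KerRel q φ ψ := by
    intro g g' h00 h01 h10 h11
    obtain ⟨w, hw⟩ := hker
    -- `g` lies in `Γ₀(N q)`
    have hg : (g : SL(2, ℤ)) ∈ Gamma0 (N * q) := by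
      rw [mem_Gamma0_iff_dvd]
      obtain ⟨k, hk⟩ := (mem_Gamma0_iff_dvd (g' : SL(2, ℤ))).1 g'.2
      have h10' : (q : ℤ) * ((g' : SL(2, ℤ)) : Matrix (Fin 2) (Fin 2) ℤ) 1 0 =
          ((g : SL(2, ℤ)) : Matrix (Fin 2) (Fin 2) ℤ) 1 0 := h10
      refine ⟨k, ?_⟩
      rw [← h10', hk]; push_cast; ring
    set g0 : Gamma0 (N * q) := ⟨(g : SL(2, ℤ)), hg⟩ with hg0
    have e1 : alpha1 N q ℤ x₁ (Additive.ofMul g0) = x₁ (Additive.ofMul g) := by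
      rw [Fermat.Agent.S41.H41.alpha1_apply]
      rfl
    have e2 : alpha2 N q ℤ x₂ (Additive.ofMul g0) = x₂ (Additive.ofMul g') :=
      Fermat.Agent.S41.H41.alpha2_apply hq.ne_zero x₂ g0 g' h00 h01 h10 h11
    have e3 := DFunLike.congr_fun hw (Additive.ofMul g0)
    rw [AddMonoidHom.add_apply, e1, e2, AddMonoidHom.nsmul_apply, nsmul_eq_mul] at e3
    show ((x₁ (Additive.ofMul g) : ℤ) : ZMod p) + ((x₂ (Additive.ofMul g') : ℤ) : ZMod p) = 0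
    rw [← Int.cast_add, e3]
    push_cast
    rw [ZMod.natCast_self, zero_mul]
  -- the eigen-equation
  have hEig : ∀ γ : Gamma0 N,
      (Fermat.Agent.S16.H75.isHeckeSys_T (N := N) l₀.2 hl₀N).heckeOp φ (Additive.ofMul γ) =
        ((c : ℤ) : ZMod p) * φ (Additive.ofMul γ) := by
    intro γ
    obtain ⟨w, hw⟩ := heig
    have h1 : heckeHom N l₀ (ZMod p) φ = (Int.castAddHom (ZMod p)).comp (heckeHom N l₀ ℤ x₁) :=
      heckeHom_red N l₀ p x₁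
    rw [← Fermat.Agent.S16.H75.heckeHom_of_not_dvd hl₀N, h1]
    have h2 : heckeHom N l₀ ℤ x₁ = c • x₁ + p • w := by
      rw [← hw]; abel
    rw [h2]
    show (((c • x₁ + p • w) (Additive.ofMul γ) : ℤ) : ZMod p) = _
    rw [AddMonoidHom.add_apply, AddMonoidHom.nsmul_apply, nsmul_eq_mul]
    show (((c • x₁) (Additive.ofMul γ) + (p : ℤ) * w (Additive.ofMul γ) : ℤ) : ZMod p) =
      ((c : ℤ) : ZMod p) * ((x₁ (Additive.ofMul γ) : ℤ) : ZMod p)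
    have h3 : (c • x₁) (Additive.ofMul γ) = c * x₁ (Additive.ofMul γ) := by
      simp
    rw [h3]
    push_cast
    rw [ZMod.natCast_self, zero_mul, add_zero]
  have hθ : ((c : ℤ) : ZMod p) ≠ ((l₀ : ℕ) : ZMod p) + 1 := by
    intro h
    apply hc
    have h' : (((((l₀ : ℕ) : ℤ) + 1 - c : ℤ)) : ZMod p) = 0 := by
      push_cast
      rw [h]; ring
    exact (ZMod.intCast_zmod_eq_zero_iff_dvd _ p).1 h'
  have hℓF : (((l₀ : ℕ)) : ZMod p) ≠ 0 := by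
    intro h
    have h1 : p ∣ (l₀ : ℕ) := (ZMod.natCast_eq_zero_iff _ _).1 h
    exact hl₀p ((Nat.prime_dvd_prime_iff_eq hp l₀.2).1 h1).symm
  obtain ⟨h1, h2⟩ := Fermat.Agent.S41.H15.ihara_eigen (F := ZMod p) (p := p) hp.ne_zero hN hq hqN
    l₀.2 hl₀2 hl₀N hl₀q hℓF φ ψ hφT hφL hψT hkerRel ((c : ℤ) : ZMod p) hθ hEig
  exact ⟨(red_eq_zero_iff hp.ne_zero x₁).1 h1, (red_eq_zero_iff hp.ne_zero x₂).1 h2⟩

theorem nsmul_hom_apply {G : Type*} [AddZeroClass G] (n : ℕ) (f : G →+ ℤ) (g : G) :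
    (n • f) g = (n : ℤ) * f g := by
  simp

/-- `β ∘ α` kills `(x, -ε x)` modulo `p` when `T_q x ≡ ε (q + 1) x`. -/
theorem beta_alpha_aux {N p : ℕ} {q : Nat.Primes} (hU2 : U2Facts N q) (ε : ℤ)
    (hε : ε = 1 ∨ ε = -1) (x zq : Additive (Gamma0 N) →+ ℤ)
    (hxq : heckeHom N q ℤ x - (ε * (((q : ℕ) : ℤ) + 1)) • x = p • zq) :
    beta1 N q ℤ (alpha1 N q ℤ x + alpha2 N q ℤ ((-ε) • x)) = p • ((-ε) • zq) ∧
    beta2 N q ℤ (alpha1 N q ℤ x + alpha2 N q ℤ ((-ε) • x)) = p • zq := by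
  have hT : heckeHom N q ℤ x = (ε * (((q : ℕ) : ℤ) + 1)) • x + p • zq := by
    rw [← hxq]; abel
  constructor
  · rw [map_add, map_zsmul, map_zsmul, hU2.b11, hU2.b12, hT]
    rcases hε with rfl | rfl
    · module
    · module
  · rw [map_add, map_zsmul, map_zsmul, hU2.b21, hU2.b22, hT]
    rcases hε with rfl | rfl
    · module
    · module

/-- **S41 from its leaves.**  The conclusion of the frozen statement S41, from
* `hRED`  : the integral mod `p` eigenvector of level `N` (`RedStatement`),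
* `hNE`   : the non-Eisenstein witness (`NeStatement`),
* `hPAIR` : Poincaré duality mod `p` with adjointness (`PairStatement`),
* `hU2`   : the identities of the degeneracy maps (`U2Facts`),
* `hHN`, `hHM` : Hecke operators on parabolic integral homs (`HeckeFacts`),
and the landed `ihara_eigen` (H15), `exists_new_eigen` (H84), `exists_eigenform_of_hom` (T4). -/
theorem s41_of_leaves {W : WeierstrassCurve ℤ} {p N : ℕ} {q : Nat.Primes} (hp : p.Prime)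
    (hN : 0 < N) (hqN : ¬ (q : ℕ) ∣ N)
    (hRED : RedStatement W p N q) (hNE : NeStatement W p)
    (hPAIR : ∀ l₀ : Nat.Primes, ¬ (l₀ : ℕ) ∣ N * q → (l₀ : ℕ) ≠ 2 → (l₀ : ℕ) ≠ p →
      PairStatement p N q l₀)
    (hU2 : U2Facts N q) (hHN : HeckeFacts N) (hHM : HeckeFacts (N * q)) :
    ∃ (g : CuspForm (CongruenceSubgroup.Gamma0 (N * q)) 2) (𝔪' : Ideal (integralClosure ℤ ℂ)),
      g.IsNormalizedEigenform ∧ 𝔪'.IsMaximal ∧ (p : integralClosure ℤ ℂ) ∈ 𝔪' ∧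
      (∀ ℓ : ℕ, ℓ.Prime → W.IsGoodPrimeFor ℓ → ¬ ℓ ∣ N * q → ℓ ≠ p →
        ∃ a : integralClosure ℤ ℂ, (a : ℂ) = ModularFormClass.qCoeff g ℓ ∧
          a - ((W.apOfModel ℓ : ℤ) : integralClosure ℤ ℂ) ∈ 𝔪') ∧
      g.IsNewAt q := by
  classical
  have hpF : Fact p.Prime := ⟨hp⟩
  have hNZ : NeZero N := ⟨hN.ne'⟩
  have hMZ : NeZero (N * q) := ⟨Nat.mul_ne_zero hN.ne' q.2.ne_zero⟩
  have hFN : Module.Finite ℤ ↥(parabolicHoms ℤ (Gamma0 N) ℤ) := finite_parabolicHoms_int N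
  have hFM : Module.Finite ℤ ↥(parabolicHoms ℤ (Gamma0 (N * q)) ℤ) :=
    finite_parabolicHoms_int (N * q)
  obtain ⟨ε, x, hε, hxpar, ⟨γ₀, hγ₀⟩, hxS, zq, hzq, hxq⟩ := hRED
  -- the non-Eisenstein prime
  obtain ⟨l, hl, hlS, hlgood, hlne⟩ := hNE ({2, p, (q : ℕ)} ∪ N.primeFactors)
  have hl2 : l ≠ 2 := fun h => hlS (by simp [h])
  have hlp : l ≠ p := fun h => hlS (by simp [h])
  have hlq : l ≠ (q : ℕ) := fun h => hlS (by simp [h])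
  have hlN : ¬ l ∣ N := fun h => hlS (by
    rw [Finset.mem_union]; right
    exact Nat.mem_primeFactors.2 ⟨hl, h, hN.ne'⟩)
  have hlNq : ¬ l ∣ N * q := by
    intro h
    rcases (Nat.Prime.dvd_mul hl).1 h with h | h
    · exact hlN h
    · exact hlq ((Nat.prime_dvd_prime_iff_eq hl q.2).1 h)
  set l₀ : Nat.Primes := ⟨l, hl⟩ with hl₀
  obtain ⟨EN, EM, hEN, hEM, hadj1, hadj2, hsa⟩ := hPAIR l₀ hlNq hl2 hlp
  -- the maps between the lattices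
  let a1 : ↥(parabolicHoms ℤ (Gamma0 N) ℤ) →+ ↥(parabolicHoms ℤ (Gamma0 (N * q)) ℤ) :=
    resHom (alpha1 N q ℤ) hU2.para1
  let a2 : ↥(parabolicHoms ℤ (Gamma0 N) ℤ) →+ ↥(parabolicHoms ℤ (Gamma0 (N * q)) ℤ) :=
    resHom (alpha2 N q ℤ) hU2.para2
  let b1 : ↥(parabolicHoms ℤ (Gamma0 (N * q)) ℤ) →+ ↥(parabolicHoms ℤ (Gamma0 N) ℤ) :=
    resHom (beta1 N q ℤ) hU2.parb1
  let b2 : ↥(parabolicHoms ℤ (Gamma0 (N * q)) ℤ) →+ ↥(parabolicHoms ℤ (Gamma0 N) ℤ) :=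
    resHom (beta2 N q ℤ) hU2.parb2
  let ι : Type := {ℓ : Nat.Primes // ¬ (ℓ : ℕ) ∣ N * q}
  let S' : ι → (↥(parabolicHoms ℤ (Gamma0 (N * q)) ℤ) →+ ↥(parabolicHoms ℤ (Gamma0 (N * q)) ℤ)) :=
    fun i => resHom (heckeHom (N * q) i.1 ℤ) (fun y hy => hHM.par i.1 y hy)
  let S : ι → (↥(parabolicHoms ℤ (Gamma0 N) ℤ) →+ ↥(parabolicHoms ℤ (Gamma0 N) ℤ)) :=
    fun i => resHom (heckeHom N i.1 ℤ) (fun y hy => hHN.par i.1 y hy)
  let ι₀ : Set ι := {i | W.IsGoodPrimeFor ((i.1 : Nat.Primes) : ℕ) ∧ ((i.1 : Nat.Primes) : ℕ) ≠ p}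
  let c : ι → ℤ := fun i => W.apOfModel ((i.1 : Nat.Primes) : ℕ)
  let i₀ : ι := ⟨l₀, hlNq⟩
  have hi₀ : i₀ ∈ ι₀ := ⟨hlgood, hlp⟩
  have htf : ∀ y : ↥(parabolicHoms ℤ (Gamma0 N) ℤ), p • y = 0 → y = 0 := by
    intro y hy
    apply Subtype.ext
    refine AddMonoidHom.ext fun γ => ?_
    show (y : Additive (Gamma0 N) →+ ℤ) γ = 0
    have h0 : p • (y : Additive (Gamma0 N) →+ ℤ) = 0 := congrArg Subtype.val hy
    have h1 : (p : ℤ) * (y : Additive (Gamma0 N) →+ ℤ) γ = 0 := by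
      rw [← nsmul_hom_apply, h0]; rfl
    rcases mul_eq_zero.1 h1 with h2 | h2
    · exact absurd (by exact_mod_cast h2) hp.ne_zero
    · exact h2
  have hadj1' : ∀ x u, EM (a1 x) u = EN x (b1 u) := fun x u => hadj1 x (b1 u) u (a1 x) rfl rfl
  have hadj2' : ∀ x u, EM (a2 x) u = EN x (b2 u) := fun x u => hadj2 x (b2 u) u (a2 x) rfl rfl
  have hS'comm : ∀ (i k : ι) y, b1 y = 0 → b2 y = 0 → S' i (S' k y) = S' k (S' i y) :=
    fun i k y _ _ => Subtype.ext (hHM.comm i.1 k.1 y.1 y.2)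
  have hS'b : ∀ (i : ι) y, b1 y = 0 → b2 y = 0 → b1 (S' i y) = 0 ∧ b2 (S' i y) = 0 := by
    intro i y h1 h2
    have h1' : beta1 N q ℤ y.1 = 0 := congrArg Subtype.val h1
    have h2' : beta2 N q ℤ y.1 = 0 := congrArg Subtype.val h2
    constructor
    · apply Subtype.ext
      show beta1 N q ℤ (heckeHom (N * q) i.1 ℤ y.1) = 0
      rw [hU2.eqb1 i.1 i.2, h1', map_zero]
    · apply Subtype.ext
      show beta2 N q ℤ (heckeHom (N * q) i.1 ℤ y.1) = 0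
      rw [hU2.eqb2 i.1 i.2, h2', map_zero]
  have ha1S : ∀ i ∈ ι₀, ∀ x, a1 (S i x) = S' i (a1 x) :=
    fun i _ x => Subtype.ext (hU2.eqa1 i.1 i.2 x.1)
  have ha2S : ∀ i ∈ ι₀, ∀ x, a2 (S i x) = S' i (a2 x) :=
    fun i _ x => Subtype.ext (hU2.eqa2 i.1 i.2 x.1)
  have hb1S : ∀ y, b1 (S' i₀ y) = S i₀ (b1 y) := fun y => Subtype.ext (hU2.eqb1 l₀ hlNq y.1)
  have hb2S : ∀ y, b2 (S' i₀ y) = S i₀ (b2 y) := fun y => Subtype.ext (hU2.eqb2 l₀ hlNq y.1)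
  have hsa' : ∀ x x', EN (S i₀ x) x' = EN x (S i₀ x') :=
    fun x x' => hsa x x' (S i₀ x) (S i₀ x') rfl rfl
  -- Ihara's lemma on the lattices
  have hIhara : ∀ x₁ x₂ : ↥(parabolicHoms ℤ (Gamma0 N) ℤ), (∃ w, a1 x₁ + a2 x₂ = p • w) →
      (∃ w, S i₀ x₁ - c i₀ • x₁ = p • w) → (∃ w, S i₀ x₂ - c i₀ • x₂ = p • w) →
      (∃ w, x₁ = p • w) ∧ ∃ w, x₂ = p • w := by
    rintro x₁ x₂ ⟨w, hw⟩ ⟨w₁, hw₁⟩ -
    have hker : ∃ w : Additive (Gamma0 (N * q)) →+ ℤ,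
        alpha1 N q ℤ x₁.1 + alpha2 N q ℤ x₂.1 = p • w := ⟨w.1, congrArg Subtype.val hw⟩
    have heig : ∃ w : Additive (Gamma0 N) →+ ℤ,
        heckeHom N l₀ ℤ x₁.1 - (W.apOfModel l) • x₁.1 = p • w := ⟨w₁.1, congrArg Subtype.val hw₁⟩
    obtain ⟨⟨v₁, hv₁⟩, ⟨v₂, hv₂⟩⟩ := ihara_int l₀ hp hN q.2 hqN hl2 hlN hlq hlp (W.apOfModel l)
      hlne x₁.1 x₂.1 x₁.2 x₂.2 hker heig
    have hv₁p : IsParabolicHom (Gamma0 N) v₁ :=
      isParabolicHom_of_nsmul hp.ne_zero (hv₁ ▸ x₁.2)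
    have hv₂p : IsParabolicHom (Gamma0 N) v₂ :=
      isParabolicHom_of_nsmul hp.ne_zero (hv₂ ▸ x₂.2)
    exact ⟨⟨⟨v₁, hv₁p⟩, Subtype.ext hv₁⟩, ⟨⟨v₂, hv₂p⟩, Subtype.ext hv₂⟩⟩
  -- the mod `p` eigenvector `(x, -ε x)`
  let x₁ : ↥(parabolicHoms ℤ (Gamma0 N) ℤ) := ⟨x, hxpar⟩
  let x₂ : ↥(parabolicHoms ℤ (Gamma0 N) ℤ) := (-ε) • x₁
  let zq' : ↥(parabolicHoms ℤ (Gamma0 N) ℤ) := ⟨zq, hzq⟩
  have hx : ¬ ((∃ w, x₁ = p • w) ∧ ∃ w, x₂ = p • w) := by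
    rintro ⟨⟨w, hw⟩, -⟩
    apply hγ₀
    have h0 : x = p • (w : Additive (Gamma0 N) →+ ℤ) := congrArg Subtype.val hw
    rw [h0, nsmul_hom_apply]
    exact dvd_mul_right _ _
  have hba1 : ∃ w, b1 (a1 x₁ + a2 x₂) = p • w :=
    ⟨(-ε) • zq', Subtype.ext (beta_alpha_aux hU2 ε hε x zq hxq).1⟩
  have hba2 : ∃ w, b2 (a1 x₁ + a2 x₂) = p • w :=
    ⟨zq', Subtype.ext (beta_alpha_aux hU2 ε hε x zq hxq).2⟩
  have hSx₁ : ∀ i ∈ ι₀, ∃ w, S i x₁ - c i • x₁ = p • w := by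
    intro i hi
    have hiN : ¬ ((i.1 : Nat.Primes) : ℕ) ∣ N := fun h => i.2 (Dvd.dvd.mul_right h q)
    obtain ⟨z, hz, hzeq⟩ := hxS i.1 hi.1 hiN hi.2
    exact ⟨⟨z, hz⟩, Subtype.ext hzeq⟩
  have hSx₂ : ∀ i ∈ ι₀, ∃ w, S i x₂ - c i • x₂ = p • w := by
    intro i hi
    obtain ⟨w, hw⟩ := hSx₁ i hi
    refine ⟨(-ε) • w, ?_⟩
    have h3 : S i x₁ = c i • x₁ + p • w := by rw [← hw]; abel
    show S i ((-ε) • x₁) - c i • ((-ε) • x₁) = p • ((-ε) • w)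
    rw [map_zsmul, h3]
    module
  -- the complex side
  let j : ↥(parabolicHoms ℤ (Gamma0 (N * q)) ℤ) →+ (Additive (Gamma0 (N * q)) →+ ℂ) :=
    (castC (N * q)).comp (parabolicHoms ℤ (Gamma0 (N * q)) ℤ).subtype.toAddMonoidHom
  have hj : Function.Injective j := fun y y' h => Subtype.ext (castC_injective (N * q) h)
  let SW : ι → ((Additive (Gamma0 (N * q)) →+ ℂ) →ₗ[ℂ] (Additive (Gamma0 (N * q)) →+ ℂ)) :=
    fun i => heckeLin (N * q) i.1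
  have hjS : ∀ (i : ι) y, SW i (j y) = j (S' i y) := fun i y => heckeHom_castC (N * q) i.1 y.1
  obtain ⟨w, lam, 𝔪', hw0, hwspan, hmax', hpm', hweig, hwcong⟩ :=
    Fermat.Agent.S41.H84.exists_new_eigen_int p htf a1 a2 b1 b2 EN EM hEN hEM hadj1' hadj2' S' hS'comm hS'b ι₀ S c
      ha1S ha2S i₀ hi₀ hb1S hb2S hsa' hIhara x₁ x₂ hx hba1 hba2 hSx₁ hSx₂ j hj SW hjS
  -- `w` is parabolic
  have hwpar : IsParabolicHom (Gamma0 (N * q)) w := by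
    have hle : Submodule.span ℂ (j '' {y | b1 y = 0 ∧ b2 y = 0}) ≤
        parabolicHoms ℂ (Gamma0 (N * q)) ℂ := by
      apply Submodule.span_le.2
      rintro _ ⟨y, -, rfl⟩
      exact isParabolicHom_castC y.2
    exact hle hwspan
  -- `U_q ∘ U_q = 1` on `w`
  have hqq : heckeHom (N * q) q ℂ (heckeHom (N * q) q ℂ w) = w := by
    have hall : ∀ v ∈ Submodule.span ℂ (j '' {y | b1 y = 0 ∧ b2 y = 0}),
        heckeLin (N * q) q (heckeLin (N * q) q v) = v := by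
      intro v hv
      induction hv using Submodule.span_induction with
      | mem v hv =>
        obtain ⟨y, ⟨h1, h2⟩, rfl⟩ := hv
        have h1' : beta1 N q ℤ y.1 = 0 := congrArg Subtype.val h1
        have h2' : beta2 N q ℤ y.1 = 0 := congrArg Subtype.val h2
        show heckeHom (N * q) q ℂ (heckeHom (N * q) q ℂ (castC (N * q) y.1)) = castC (N * q) y.1
        rw [heckeHom_castC, heckeHom_castC, hU2.uq y.1 h1' h2']
      | zero => rw [map_zero, map_zero]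
      | add a b _ _ ha hb => rw [map_add, map_add, ha, hb]
      | smul c a _ ha => rw [map_smul, map_smul, ha]
    exact hall w hwspan
  -- back to forms (T4)
  let lam' : Nat.Primes → ℂ := fun ℓ =>
    if h : ¬ (ℓ : ℕ) ∣ N * q then ((lam ⟨ℓ, h⟩ : integralClosure ℤ ℂ) : ℂ) else 0
  have hlam' : ∀ (ℓ : Nat.Primes) (h : ¬ (ℓ : ℕ) ∣ N * q),
      lam' ℓ = ((lam ⟨ℓ, h⟩ : integralClosure ℤ ℂ) : ℂ) := fun ℓ h => dif_pos h
  obtain ⟨g, hg, hgI, hgq⟩ := exists_eigenform_of_hom (N * q)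
    {ℓ : Nat.Primes | ¬ (ℓ : ℕ) ∣ N * q} q w hw0 hwpar lam'
    (fun ℓ hℓ => by rw [hlam' ℓ hℓ]; exact hweig ⟨ℓ, hℓ⟩) hqq
  refine ⟨g, 𝔪', hg, hmax', hpm', ?_, hgq⟩
  intro ℓ hℓ hgood hℓNq hℓp
  refine ⟨lam ⟨⟨ℓ, hℓ⟩, hℓNq⟩, ?_, hwcong ⟨⟨ℓ, hℓ⟩, hℓNq⟩ ⟨hgood, hℓp⟩⟩
  rw [hgI ⟨ℓ, hℓ⟩ hℓNq, hlam' ⟨ℓ, hℓ⟩ hℓNq]

end Fermat.Agent.S41.H40
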