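/-
S41 (level raising), helper40: the frozen statement, conditional ONLY on the two leaves which
are not yet on main:
* `hPAIR` : Poincaré duality mod `p` with adjointness (`PairStatement`),
* `hUQ`   : `U_q² = 1` on the common kernel of the two transfers (`UqStatement`).
Everything else is fed from landed files:
RED (`H97.red_int` ∘ `H73.exists_eigenHom_of_eigenform`), NE (`H2.ne_witness`),
U2 (`H15.BetaAlpha`, `H39.AlphaHecke`, `H63.BetaHecke`, `H26.ParabolicU2`),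
DICT-COMM (`H26.isParabolicHom_heckeHom`, `H73.heckeHom_comm_int`).
-/
import Mathlib
import Fermat.Agent.S41.H40.Asm
import Fermat.Agent.S41.H97.RedInt
import Fermat.Agent.S41.H73.EigenHom
import Fermat.Agent.S41.H73.DictComm
import Fermat.Agent.S41.H2.NeWitness
import Fermat.Agent.S41.H15.BetaAlpha
import Fermat.Agent.S41.H39.AlphaHecke
import Fermat.Agent.S41.H63.BetaHecke
import Fermat.Agent.S41.H26.ParabolicU2
import Fermat.Agent.S41.H26.ParabolicHecke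

set_option autoImplicit false
open WeierstrassCurve WeierstrassCurve.Affine WeierstrassCurve.Affine.Point
open scoped CongruenceSubgroup
open WeierstrassCurve
open CongruenceSubgroup ModularCurve ModularCurve.Period
open scoped MatrixGroups
open Fermat.Agent.S16.H75 (heckeHom)
open Fermat.Agent.S41.H41 (alpha1 alpha2 beta1 beta2)

namespace Fermat.Agent.S41.H40

/-- **Leaf U2-UQ** at coefficients `ℤ`: `U_q² = 1` on the common kernel of the two transfers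
(`Fermat.Agent.S41.H41` leaf `heckeHom_q_sq_of_beta_eq_zero`, `A = ℤ`). -/
def UqStatement (N : ℕ) (q : Nat.Primes) : Prop :=
  ∀ u : Additive (Gamma0 (N * q)) →+ ℤ, beta1 N q ℤ u = 0 → beta2 N q ℤ u = 0 →
    heckeHom (N * q) q ℤ (heckeHom (N * q) q ℤ u) = u

/-- The U2 package from the landed leaves and `UqStatement`. -/
theorem u2Facts_of_uq {N : ℕ} {q : Nat.Primes} (hqN : ¬ (q : ℕ) ∣ N) (hUQ : UqStatement N q) :
    U2Facts N q where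
  b11 φ := Fermat.Agent.S41.H15.beta1_alpha1 q.2 hqN φ
  b22 φ := Fermat.Agent.S41.H15.beta2_alpha2 q.2 hqN φ
  b12 φ := Fermat.Agent.S41.H15.beta1_alpha2 q.2 hqN φ
  b21 φ := Fermat.Agent.S41.H15.beta2_alpha1 q.2 hqN φ
  eqa1 ℓ hℓ φ := Fermat.Agent.S41.H39.alpha1_heckeHom q.2 hqN ℓ hℓ φ
  eqa2 ℓ hℓ φ := Fermat.Agent.S41.H39.alpha2_heckeHom q.2 hqN ℓ hℓ φ
  eqb1 ℓ hℓ u := Fermat.Agent.S41.H63.beta1_heckeHom q.2 hqN ℓ hℓ u
  eqb2 ℓ hℓ u := Fermat.Agent.S41.H63.beta2_heckeHom q.2 hqN ℓ hℓ u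
  para1 _ hφ := Fermat.Agent.S41.H26.alpha1_mem_parabolicHoms hφ
  para2 _ hφ := Fermat.Agent.S41.H26.alpha2_mem_parabolicHoms q.2 hφ
  parb1 _ hu := Fermat.Agent.S41.H26.beta1_mem_parabolicHoms q.2 hqN hu
  parb2 _ hu := Fermat.Agent.S41.H26.beta2_mem_parabolicHoms q.2 hqN hu
  uq := hUQ

/-- DICT-COMM from the landed leaves. -/
theorem heckeFacts (M : ℕ) [NeZero M] : HeckeFacts M where
  par ℓ _ hx := Fermat.Agent.S41.H26.isParabolicHom_heckeHom M ℓ hx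
  comm ℓ ℓ' x hx := Fermat.Agent.S41.H73.heckeHom_comm_int M ℓ ℓ' x hx

/-- RED from the landed leaves (`H97.red_int` and T1 `H73.exists_eigenHom_of_eigenform`). -/
theorem redStatement {W : WeierstrassCurve ℤ} {p N q' : ℕ} (hp : p.Prime) (hN : 0 < N)
    (hq' : q'.Prime)
    (f : CuspForm (CongruenceSubgroup.Gamma0 N) 2) (𝔪 : Ideal (integralClosure ℤ ℂ))
    (hf : f.IsNormalizedEigenform) (hmax : 𝔪.IsMaximal) (hpm : (p : integralClosure ℤ ℂ) ∈ 𝔪)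
    (hcong : ∀ ℓ : ℕ, ℓ.Prime → W.IsGoodPrimeFor ℓ → ¬ ℓ ∣ N → ℓ ≠ p →
      ∃ a : integralClosure ℤ ℂ, (a : ℂ) = ModularFormClass.qCoeff f ℓ ∧
        a - ((W.apOfModel ℓ : ℤ) : integralClosure ℤ ℂ) ∈ 𝔪)
    (hLR : ∃ a : integralClosure ℤ ℂ, (a : ℂ) = ModularFormClass.qCoeff f q' ∧
      a ^ 2 - ((q' : integralClosure ℤ ℂ) + 1) ^ 2 ∈ 𝔪) :
    RedStatement W p N ⟨q', hq'⟩ := by
  have hNZ : NeZero N := ⟨hN.ne'⟩
  obtain ⟨xC, hxpar, hx0, hxeig⟩ := Fermat.Agent.S41.H73.exists_eigenHom_of_eigenform f hf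
  obtain ⟨ε, x, hε, hxp, ⟨γ, hγ⟩, hxS, z, hz, hzq⟩ :=
    Fermat.Agent.S41.H97.red_int (W := W) hp hq' f 𝔪 hmax hpm hcong hLR xC hx0 hxpar hxeig
  refine ⟨ε, x, hε, hxp, ⟨Additive.ofMul γ, hγ⟩, ?_, z, hz, ?_⟩
  · intro ℓ hgood hℓN hℓp
    obtain ⟨z', hz', hz'eq⟩ := hxS ℓ hgood hℓN hℓp
    exact ⟨z', hz', by rw [hz'eq, natCast_zsmul]⟩
  · rw [hzq, natCast_zsmul]

/-- **The frozen statement S41, modulo PAIR and U2-UQ.** -/
theorem s41_of_pair_uq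
    (E : WeierstrassCurve ℚ) [E.IsElliptic] {W : WeierstrassCurve ℤ} (hW : W.IsIntegralModelOf E)
    {p N q' : ℕ} (hp : p.Prime) (hp2 : p ≠ 2) (hN : 0 < N) (hq' : q'.Prime) (hq'N : ¬ q' ∣ N)
    (hirr : GaloisRepIsIrreducible (K := AlgebraicClosure ℚ) ℚ E p)
    (f : CuspForm (CongruenceSubgroup.Gamma0 N) 2) (𝔪 : Ideal (integralClosure ℤ ℂ))
    (hf : f.IsNormalizedEigenform) (hmax : 𝔪.IsMaximal) (hpm : (p : integralClosure ℤ ℂ) ∈ 𝔪)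
    (hcong : ∀ ℓ : ℕ, ℓ.Prime → W.IsGoodPrimeFor ℓ → ¬ ℓ ∣ N → ℓ ≠ p →
      ∃ a : integralClosure ℤ ℂ, (a : ℂ) = ModularFormClass.qCoeff f ℓ ∧
        a - ((W.apOfModel ℓ : ℤ) : integralClosure ℤ ℂ) ∈ 𝔪)
    (hLR : ∃ a : integralClosure ℤ ℂ, (a : ℂ) = ModularFormClass.qCoeff f q' ∧
      a ^ 2 - ((q' : integralClosure ℤ ℂ) + 1) ^ 2 ∈ 𝔪)
    (hPAIR : ∀ l₀ : Nat.Primes, ¬ (l₀ : ℕ) ∣ N * q' → (l₀ : ℕ) ≠ 2 → (l₀ : ℕ) ≠ p →
      PairStatement p N q' l₀)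
    (hUQ : UqStatement N ⟨q', hq'⟩) :
    ∃ (g : CuspForm (CongruenceSubgroup.Gamma0 (N * q')) 2) (𝔪' : Ideal (integralClosure ℤ ℂ)),
      g.IsNormalizedEigenform ∧ 𝔪'.IsMaximal ∧ (p : integralClosure ℤ ℂ) ∈ 𝔪' ∧
      (∀ ℓ : ℕ, ℓ.Prime → W.IsGoodPrimeFor ℓ → ¬ ℓ ∣ N * q' → ℓ ≠ p →
        ∃ a : integralClosure ℤ ℂ, (a : ℂ) = ModularFormClass.qCoeff g ℓ ∧
          a - ((W.apOfModel ℓ : ℤ) : integralClosure ℤ ℂ) ∈ 𝔪') ∧
      g.IsNewAt q' := by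
  have hNZ : NeZero N := ⟨hN.ne'⟩
  have hMZ : NeZero (N * q') := ⟨Nat.mul_ne_zero hN.ne' hq'.ne_zero⟩
  exact s41_of_leaves (q := ⟨q', hq'⟩) hp hN hq'N
    (redStatement hp hN hq' f 𝔪 hf hmax hpm hcong hLR)
    (fun S => Fermat.Agent.S41.H2.ne_witness E hW hp hp2 hirr S)
    hPAIR (u2Facts_of_uq (q := ⟨q', hq'⟩) hq'N hUQ) (heckeFacts N) (heckeFacts (N * q'))

end Fermat.Agent.S41.H40
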