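/-
S41 (level raising), helper40: the frozen statement, conditional ONLY on the leaf PAIR
(`PairStatement`, Poincaré duality mod `p` with adjointness).  U2-UQ is fed from the landed
`Fermat.Agent.S41.H69.heckeHom_q_sq_of_beta_eq_zero`.
-/
import Mathlib
import Fermat.Agent.S41.H40.Final
import Fermat.Agent.S41.H69.UQ

set_option autoImplicit false
open WeierstrassCurve WeierstrassCurve.Affine WeierstrassCurve.Affine.Point
open scoped CongruenceSubgroup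
open WeierstrassCurve
open CongruenceSubgroup ModularCurve ModularCurve.Period

namespace Fermat.Agent.S41.H40

/-- U2-UQ from the landed leaf. -/
theorem uqStatement {N : ℕ} (q : Nat.Primes) (hqN : ¬ (q : ℕ) ∣ N) : UqStatement N q :=
  fun u h1 h2 => Fermat.Agent.S41.H69.heckeHom_q_sq_of_beta_eq_zero q.2 hqN u h1 h2

/-- **The frozen statement S41, modulo PAIR only.** -/
theorem s41_of_pair
    (E : WeierstrassCurve ℚ) [E.IsElliptic] {W : WeierstrassCurve ℤ} (hW : W.IsIntegralModelOf E)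
    {p N q' : ℕ} (hp : p.Prime) (hp2 : p ≠ 2) (hN : 0 < N) (hq' : q'.Prime) (hq'N : ¬ q' ∣ N)
    (hirr : GaloisRepIsIrreducible (K := AlgebraicClosure ℚ) ℚ E p)
    (f : CuspForm (CongruenceSubgroup.Gamma0 N) 2) (𝔪 : Ideal (integralClosure ℤ ℂ))
    (hf : f.IsNormalizedEigenform) (hmax : 𝔪.IsMaximal) (hpm : (p : integralClosure ℤ ℂ) ∈ 𝔪)
    (hcong : ∀ ℓ : ℕ, ℓ.Prime → W.IsGoodPrimeFor ℓ → ¬ ℓ ∣ N → ℓ ≠ p →
      ∃ a : integralClosure ℤ ℂ, (a : ℂ) = ModularFormClass.qCoeff f ℓ ∧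
        a - ((W.apOfModel ℓ : ℤ) : integralClosure ℤ ℂ) ∈ 𝔪)
    (hLR : ∃ a : integralClosure ℤ ℂ, (a : ℂ) = ModularFormClass.qCoeff f q' ∧
      a ^ 2 - ((q' : integralClosure ℤ ℂ) + 1) ^ 2 ∈ 𝔪)
    (hPAIR : ∀ l₀ : Nat.Primes, ¬ (l₀ : ℕ) ∣ N * q' → (l₀ : ℕ) ≠ 2 → (l₀ : ℕ) ≠ p →
      PairStatement p N q' l₀) :
    ∃ (g : CuspForm (CongruenceSubgroup.Gamma0 (N * q')) 2) (𝔪' : Ideal (integralClosure ℤ ℂ)),
      g.IsNormalizedEigenform ∧ 𝔪'.IsMaximal ∧ (p : integralClosure ℤ ℂ) ∈ 𝔪' ∧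
      (∀ ℓ : ℕ, ℓ.Prime → W.IsGoodPrimeFor ℓ → ¬ ℓ ∣ N * q' → ℓ ≠ p →
        ∃ a : integralClosure ℤ ℂ, (a : ℂ) = ModularFormClass.qCoeff g ℓ ∧
          a - ((W.apOfModel ℓ : ℤ) : integralClosure ℤ ℂ) ∈ 𝔪') ∧
      g.IsNewAt q' :=
  s41_of_pair_uq E hW hp hp2 hN hq' hq'N hirr f 𝔪 hf hmax hpm hcong hLR hPAIR
    (uqStatement ⟨q', hq'⟩ hq'N)

end Fermat.Agent.S41.H40
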