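/-
S41 (level raising), helper40: the leaf PAIR in the exact shape consumed by the top assembly,
`pair_leaf : PairStatement p N q l₀`, assembled from landed pieces:
* `H33.pairZ` (the integral pairing), `pairZ_add_left/right`, `pairZ_skew`, `pairZ_perf`;
* `H99.pairZ_alpha1_beta1`, `H99.pairZ_alpha2_beta2` (the adjunctions);
* `H15.beta1_alpha2`, `H15.beta2_alpha1` (for the self-adjointness of `T_{l₀}`);
* `H14.pairStatement_of` (the conditional PAIR-OUT assembly).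
-/
import Mathlib
import Fermat.Agent.S41.H40.Spec
import Fermat.Agent.S41.H14.PairOut
import Fermat.Agent.S41.H33.Pairing
import Fermat.Agent.S41.H33.Perf
import Fermat.Agent.S41.H99.AdjGamma0
import Fermat.Agent.S41.H15.BetaAlpha

set_option autoImplicit false
open CongruenceSubgroup ModularCurve ModularCurve.Period
open scoped MatrixGroups
open Fermat.Agent.S16.H75 (heckeHom)
open Fermat.Agent.S16.H97 (Cos)
open Fermat.Agent.S41.H41 (alpha1 alpha2 beta1 beta2)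
open Fermat.Agent.S41.H33 (pairZ)

namespace Fermat.Agent.S41.H40

/-- The integral pairing at every level (zero when the coset space is not finite, i.e. never for
positive level). -/
noncomputable def pairE (M : ℕ) (φ ψ : Additive (Gamma0 M) →+ ℤ) : ℤ :=
  open Classical in
  if h : Nonempty (Fintype (Cos (Gamma0 M))) then @pairZ (Gamma0 M) h.some φ ψ else 0

theorem pairE_eq (M : ℕ) [inst : Fintype (Cos (Gamma0 M))] (φ ψ : Additive (Gamma0 M) →+ ℤ) :
    pairE M φ ψ = pairZ (Gamma0 M) φ ψ := by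
  unfold pairE
  rw [dif_pos ⟨inst⟩]
  congr 1
  exact Subsingleton.elim _ _

theorem neg_one_mem_Gamma0' (M : ℕ) : (-1 : SL(2, ℤ)) ∈ Gamma0 M := by
  rw [Gamma0_mem]
  simp

/-- The coset space of `Γ₀(M)`, `M > 0`, is finite. -/
theorem nonempty_fintypeCos (M : ℕ) (hM : 0 < M) : Nonempty (Fintype (Cos (Gamma0 M))) := by
  have : NeZero M := ⟨hM.ne'⟩
  exact ⟨Subgroup.fintypeQuotientOfFiniteIndex⟩

/-- **Leaf PAIR.** -/
theorem pair_leaf {p N q : ℕ} {l₀ : Nat.Primes} (hp : p.Prime) (hN : 0 < N) (hq : q.Prime)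
    (hqN : ¬ q ∣ N) (hl₀ : ¬ (l₀ : ℕ) ∣ N * q) : PairStatement p N q l₀ := by
  have hl₀N : ¬ (l₀ : ℕ) ∣ N := fun h => hl₀ (Dvd.dvd.mul_right h q)
  refine Fermat.Agent.S41.H14.pairStatement_of hN hq hqN hl₀N pairE ?_ ?_ ?_ ?_ ?_ ?_ ?_ ?_
  · intro M hM φ φ' ψ hφ hφ' hψ
    obtain ⟨inst⟩ := nonempty_fintypeCos M hM
    rw [pairE_eq, pairE_eq, pairE_eq]
    exact Fermat.Agent.S41.H33.pairZ_add_left (neg_one_mem_Gamma0' M) hφ hφ' hψ
  · intro M hM φ ψ ψ' hφ hψ hψ'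
    obtain ⟨inst⟩ := nonempty_fintypeCos M hM
    rw [pairE_eq, pairE_eq, pairE_eq]
    exact Fermat.Agent.S41.H33.pairZ_add_right (neg_one_mem_Gamma0' M) hφ hψ hψ'
  · intro M hM φ ψ hφ hψ
    obtain ⟨inst⟩ := nonempty_fintypeCos M hM
    rw [pairE_eq, pairE_eq]
    exact Fermat.Agent.S41.H33.pairZ_skew (neg_one_mem_Gamma0' M) hφ hψ
  · intro M hM φ hφ h
    obtain ⟨inst⟩ := nonempty_fintypeCos M hM
    exact Fermat.Agent.S41.H33.pairZ_perf (neg_one_mem_Gamma0' M) p hp hφ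
      (fun ψ hψ => by rw [← pairE_eq]; exact h ψ hψ)
  · intro r hr hrN x u hx hu
    obtain ⟨inst⟩ := nonempty_fintypeCos N hN
    obtain ⟨inst'⟩ := nonempty_fintypeCos (N * r) (Nat.mul_pos hN hr.pos)
    rw [pairE_eq, pairE_eq]
    exact Fermat.Agent.S41.H99.pairZ_alpha1_beta1 hr hrN hx hu
  · intro r hr hrN x u hx hu
    obtain ⟨inst⟩ := nonempty_fintypeCos N hN
    obtain ⟨inst'⟩ := nonempty_fintypeCos (N * r) (Nat.mul_pos hN hr.pos)
    rw [pairE_eq, pairE_eq]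
    exact Fermat.Agent.S41.H99.pairZ_alpha2_beta2 hr hrN hx hu
  · intro φ _
    exact Fermat.Agent.S41.H15.beta1_alpha2 l₀.2 hl₀N φ
  · intro φ _
    exact Fermat.Agent.S41.H15.beta2_alpha1 l₀.2 hl₀N φ

end Fermat.Agent.S41.H40
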